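import Fermat.Agent.S17.H500.Package

/-!
# S17 / tower H, formal leaf F-POS (helper178)

`pos : P.WDStatement q → P.EllStatement l → P.KeyStatement → P.PosStatement q l`
for an arbitrary `P : PairingPackage A`: the positivity inequality

  `N D' ≤ (m / k) (q x - l x / 2) + C`,   `D'` the residual divisor of a small section through `D`.

Inputs: `mov1` (twice), `mink`, `vdm`, `bez` and the three formal statements.  The `N D` terms
cancel because `(m / k) (1 - d / m - (g - 1) / m) = 1`.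
-/

set_option autoImplicit false

namespace Fermat.Agent.S17.H178

open Fermat.Agent.S17.H500

variable {A : Type} [AddCommGroup A]

/-- `k = m - d + 1 - g` is positive. -/
theorem k_pos (P : PairingPackage A) : 0 < P.k := by
  have h1 : (4 * P.d + 2 * P.g : ℝ) ≤ P.m := by exact_mod_cast P.four_d_le_m
  have h2 : (1 : ℝ) ≤ P.g := by exact_mod_cast P.one_le_g
  have h3 : (0 : ℝ) ≤ P.d := by positivity
  unfold PairingPackage.k
  linarith

/-- `m` is positive. -/
theorem m_pos (P : PairingPackage A) : (0 : ℝ) < P.m := by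
  have h1 : (4 * P.d + 2 * P.g : ℝ) ≤ P.m := by exact_mod_cast P.four_d_le_m
  have h2 : (1 : ℝ) ≤ P.g := by exact_mod_cast P.one_le_g
  have h3 : (0 : ℝ) ≤ P.d := by positivity
  linarith

/-- **F-POS.** -/
theorem pos (P : PairingPackage A) (q l : A → ℝ) (hq : P.WDStatement q)
    (hl : P.EllStatement l) (hKey : P.KeyStatement) : P.PosStatement q l := by
  obtain ⟨Cq, hq⟩ := hq
  obtain ⟨⟨Cl, hl⟩, -⟩ := hl
  obtain ⟨Ck, hKey⟩ := hKey
  obtain ⟨Cm, hmink⟩ := P.mink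
  obtain ⟨Cv, hvdm⟩ := P.vdm
  obtain ⟨Cb, hbez⟩ := P.bez
  have hk : 0 < P.k := k_pos P
  have hm : (0 : ℝ) < P.m := m_pos P
  have hmk : 0 < (P.m : ℝ) / P.k := div_pos hm hk
  refine ⟨(P.m / P.k) * (Cq + Cl / 2 + Ck + Cv + Cm) + Cb, fun x => ?_⟩
  -- representatives
  obtain ⟨D, hDdeg, hDcls, -, hDgood⟩ := P.mov1 x 0
  obtain ⟨D₁, hD₁deg, hD₁cls, hD₁disj, hD₁good⟩ := P.mov1 x D
  have hdisj : P.Disj D D₁ := P.disj_symm _ _ hD₁disj
  -- the small section
  obtain ⟨a, D', hZ, hht⟩ := hmink D hDgood hDdeg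
  have hdegZ : P.deg (P.Z a) = P.m := P.deg_Z a
  have hdeg' : P.deg D' = P.m - P.d := by
    have h : P.deg D + P.deg D' = P.m := by rw [← map_add, ← hZ, hdegZ]
    rw [hDdeg] at h
    omega
  have hcls' : P.cls D' = -x := by
    have h : P.cls D + P.cls D' = 0 := by rw [← map_add, ← hZ, P.cls_Z a]
    rw [hDcls] at h
    exact (neg_eq_of_add_eq_zero_right h).symm
  refine ⟨D', hdeg', hcls', ?_⟩
  -- the estimates
  have hN : P.N (P.Z a) = P.N D + P.N D' := by rw [hZ, P.N_add]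
  have h1 : P.N (P.Z a) ≤ P.m * P.ht a + Cb := by
    have := (abs_le.mp (hbez a)).2
    linarith
  have h2 : P.ht a ≤ (P.Pl D + Cm) / P.k := by
    rw [le_div_iff₀ hk]
    have : (P.m : ℝ) - P.d + 1 - P.g = P.k := rfl
    rw [mul_comm, ← this]
    exact hht
  have h3 : P.Pl D ≤ P.N D - P.δ D + Cv := hvdm D hDgood hDdeg
  have h4 := abs_le.mp (hKey D D₁ hDdeg hD₁deg (hDcls.trans hD₁cls.symm) hDgood hD₁good hdisj)
  have h5 := abs_le.mp (hq x D D₁ hDdeg hD₁deg hDcls hD₁cls hDgood hD₁good hdisj)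
  have h6 := abs_le.mp (hl x D hDdeg hDcls hDgood)
  -- `N D - δ D ≤ q x - l x / 2 + (k / m) N D + const`
  have hkm : (1 - (P.d : ℝ) / P.m) - ((2 * (P.g : ℝ) - 2) / P.m) / 2 = P.k / P.m := by
    unfold PairingPackage.k
    field_simp
    ring
  have h7 : P.N D - P.δ D ≤ q x - l x / 2 + (P.k / P.m) * P.N D + (Cq + Cl / 2 + Ck) := by
    have e : (P.k / P.m) * P.N D =
        (1 - (P.d : ℝ) / P.m) * P.N D - (((2 * (P.g : ℝ) - 2) / P.m) * P.N D) / 2 := by
      rw [← hkm]; ring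
    rw [e]
    linarith [h4.1, h4.2, h5.1, h5.2, h6.1, h6.2]
  -- multiply by `m / k`
  have h8 : P.m * P.ht a ≤ (P.m / P.k) * (P.N D - P.δ D + Cv + Cm) := by
    have : P.m * P.ht a ≤ P.m * ((P.Pl D + Cm) / P.k) :=
      mul_le_mul_of_nonneg_left h2 hm.le
    have e : (P.m : ℝ) * ((P.Pl D + Cm) / P.k) = (P.m / P.k) * (P.Pl D + Cm) := by
      field_simp
    rw [e] at this
    refine this.trans (mul_le_mul_of_nonneg_left ?_ hmk.le)
    linarith
  have h9 : (P.m / P.k) * (P.N D - P.δ D + Cv + Cm) ≤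
      (P.m / P.k) * (q x - l x / 2 + (P.k / P.m) * P.N D + (Cq + Cl / 2 + Ck) + Cv + Cm) :=
    mul_le_mul_of_nonneg_left (by linarith) hmk.le
  have h10 : (P.m / P.k) * (q x - l x / 2 + (P.k / P.m) * P.N D + (Cq + Cl / 2 + Ck) + Cv + Cm) =
      (P.m / P.k) * (q x - l x / 2) + P.N D + (P.m / P.k) * (Cq + Cl / 2 + Ck + Cv + Cm) := by
    have hk0 : P.k ≠ 0 := hk.ne'
    have hm0 : (P.m : ℝ) ≠ 0 := hm.ne'
    field_simp
    ring
  linarith

end Fermat.Agent.S17.H178
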